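import Fermat.Agent.S18.H27.Integral
import Fermat.Agent.S18.H74.CoreDefs

/-!
# S18 / C1 / D3 (helper27): the minimal tuple in the vocabulary of the skeleton

* `exists_discBasis` : for a `Setup` and `b ∈ A` there is an orthonormal tuple `θ` with unit Gram
  determinant, inside `discRing A O x b`, which is a local basis at every point of the disc;
  in particular the `K(x)`-coordinates of an element of `discRing` lie in `discRing`.
* `mo_of_scale` : `m_O ∩ S_b = m_A S_b` (hypothesis (MO) of the clearing lemma).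
* `ev_of_one` : the values of `S_b` on the disc lie in `A` (hypothesis (EV) of the clearing
  lemma), from the statement that one-units have degree `0` on the disc.
-/

set_option autoImplicit false

open AlgebraicCurve IntermediateField Polynomial

noncomputable section

namespace Fermat.Agent.S18.H27

open Fermat.Agent.S18.H74

variable {K : Type*} [Field K] {A : ValuationSubring K} {F : Type*} [Field F] [Algebra K F]
  {O : ValuationSubring F} {x : F}

theorem gaussHyp_of_setup (hA : A ≠ ⊤) (hS : Setup K A F O x) : GaussHyp A O x :=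
  ⟨hS.mem_iff, hS.gauss, hA⟩

theorem gramDet_eq_discr {μ : ℕ} (θ : Fin μ → F) :
    gramDet K F x θ = Algebra.discr K⟮x⟯ θ := rfl

theorem mem_discRing_iff_inDiscRing (b : K) (f : F) :
    f ∈ discRing A O x b ↔ InDiscRing A O x b f :=
  (inDiscRing_iff A O x b f).symm

/-- **C1/D3 (minimal tuple) for a `Setup`.** -/
theorem exists_discBasis [CharZero K] (hA : A ≠ ⊤) (hS : Setup K A F O x) {b : K}
    (hb : b ∈ A) :
    ∃ θ : Fin (Module.finrank K⟮x⟯ F) → F,
      (∀ r : Fin (Module.finrank K⟮x⟯ F) → K⟮x⟯,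
        (∑ i, (r i : F) * θ i) ∈ O ↔ ∀ i, (r i : F) ∈ O) ∧
      ((gramDet K F x θ : K⟮x⟯) : F)⁻¹ ∈ O ∧
      (∀ i, θ i ∈ discRing A O x b) ∧
      (∀ r : Fin (Module.finrank K⟮x⟯ F) → K⟮x⟯,
        (∑ i, (r i : F) * θ i) ∈ discRing A O x b → ∀ i, (r i : F) ∈ discRing A O x b) ∧
      IsDiscBasis A x b θ := by
  have := hS.finite
  have h := gaussHyp_of_setup hA hS
  obtain ⟨θ₀, hθ₀, hg₀⟩ := hS.basis
  obtain ⟨θ, hON, hmem, hbasis, hgr⟩ := exists_minTuple' h θ₀ hθ₀ hg₀ hb
  refine ⟨θ, hON, hgr, fun i => (mem_discRing_iff_inDiscRing b _).mpr (hmem i), fun r hr i => ?_,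
    hbasis⟩
  exact (mem_discRing_iff_inDiscRing b _).mpr
    (coord_mem_discRing h hON hbasis r ((mem_discRing_iff_inDiscRing b _).mp hr) i)

/-- `IsDiscBasis` spelled out: if `∑ r_i θ_i` has no poles over `x = c` (`c` in the disc), every
coordinate `r_i` is a quotient `p(x)/q(x)` with `q(c) ≠ 0`. -/
theorem IsDiscBasis.exists_quot {b : K} {μ : ℕ} {θ : Fin μ → F} (hθ : IsDiscBasis A x b θ) {c : K}
    (hc : c - b ∈ A.nonunits) (r : Fin μ → K⟮x⟯)
    (hf : ∀ P : Place K F, 0 < P.ord (x - algebraMap K F c) →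
      0 ≤ P.ord (∑ i, (r i : F) * θ i)) (i : Fin μ) :
    ∃ p q : K[X], q.eval c ≠ 0 ∧ (r i : F) * aeval x q = aeval x p :=
  hθ c hc r (mem_overRing_iff_ord.mpr hf) i

/-- **(MO)**: `m_O ∩ S_b = m_A S_b`. -/
theorem mo_of_scale (hmem : ∀ a : K, algebraMap K F a ∈ O ↔ a ∈ A)
    (hscale : ∀ f : F, f ≠ 0 → ∃ c : K, c ≠ 0 ∧ algebraMap K F c * f ∈ O ∧
      (algebraMap K F c * f)⁻¹ ∈ O) (b : K) :
    ∀ e : F, e ∈ discRing A O x b → e ∈ O.nonunits →
      ∃ a : K, a ∈ A.nonunits ∧ ∃ t : F, t ∈ discRing A O x b ∧ e = algebraMap K F a * t := by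
  intro e he heO
  by_cases he0 : e = 0
  · exact ⟨0, A.nonunits.zero_mem, 0, ⟨O.zero_mem, fun P _ => by simp⟩, by simp [he0]⟩
  obtain ⟨c, hc0, hce, hcei⟩ := hscale e he0
  have hcF : algebraMap K F c ≠ 0 := by simpa using hc0
  refine ⟨c⁻¹, ?_, algebraMap K F c * e, ⟨hce, fun P hP => ?_⟩, ?_⟩
  · -- `c⁻¹ = e * (c e)⁻¹` is a nonunit of `O`, hence of `A`
    rw [ValuationSubring.mem_nonunits_iff_or, inv_inv]
    right
    intro hcA
    have h1 : algebraMap K F c ∈ O := (hmem c).mpr hcA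
    have h2 : O.valuation (algebraMap K F c * e) < 1 := by
      rw [map_mul, mul_comm]
      exact mul_lt_one_of_lt_of_le ((ValuationSubring.mem_nonunits_iff O).mp heO)
        ((O.valuation_le_one_iff _).mpr h1)
    have h3 : O.valuation (algebraMap K F c * e)⁻¹ ≤ 1 := (O.valuation_le_one_iff _).mpr hcei
    rw [map_inv₀] at h3
    have hne : O.valuation (algebraMap K F c * e) ≠ 0 :=
      (Valuation.ne_zero_iff _).mpr (mul_ne_zero hcF he0)
    have h4 : 1 ≤ O.valuation (algebraMap K F c * e) := (inv_le_one₀ (zero_lt_iff.mpr hne)).mp h3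
    exact absurd h2 (not_lt.mpr h4)
  · rw [← mem_place_iff]
    exact P.toValuationSubring.mul_mem _ _ (P.algebraMap_mem' c)
      ((mem_place_iff P e).mpr (he.2 P hP))
  · rw [map_inv₀, ← mul_assoc, inv_mul_cancel₀ hcF, one_mul]

/-- **(EV)**: the values of `S_b` at the places of the disc lie in `A`, provided one-units have
degree `0` on the disc. -/
theorem ev_of_one (hmem : ∀ a : K, algebraMap K F a ∈ O ↔ a ∈ A) (b : K)
    (ONE : ∀ y : F, y - 1 ∈ O.nonunits → ∃ s : Finset (Place K F),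
      (∀ P ∈ s, InDisc A x b P) ∧ (∀ P : Place K F, InDisc A x b P → P.ord y ≠ 0 → P ∈ s) ∧
      ∑ P ∈ s, P.ord y = 0) :
    ∀ t : F, t ∈ discRing A O x b → ∀ P : Place K F, InDisc A x b P →
      ∀ c : K, 0 < P.ord (t - algebraMap K F c) → c ∈ A := by
  intro t ht P hP c hc
  by_contra hcA
  have hc0 : c ≠ 0 := fun h => hcA (h ▸ A.zero_mem)
  have hci : c⁻¹ ∈ A := (A.mem_or_inv_mem c).resolve_left hcA
  have hciF : algebraMap K F c⁻¹ ≠ 0 := by simpa using hc0
  -- `c⁻¹` is a nonunit of `O`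
  have hciO : O.valuation (algebraMap K F c⁻¹) < 1 := by
    rw [← ValuationSubring.mem_nonunits_iff, ValuationSubring.mem_nonunits_iff_or]
    right
    rw [← map_inv₀, inv_inv, hmem]
    exact hcA
  set y : F := 1 - algebraMap K F c⁻¹ * t with hy
  have hy1 : y - 1 ∈ O.nonunits := by
    rw [ValuationSubring.mem_nonunits_iff]
    have : y - 1 = -(algebraMap K F c⁻¹ * t) := by rw [hy]; ring
    rw [this, Valuation.map_neg, map_mul]
    exact mul_lt_one_of_lt_of_le hciO ((O.valuation_le_one_iff _).mpr ht.1)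
  obtain ⟨s, hs1, hs2, hsum⟩ := ONE y hy1
  have hnonneg : ∀ P' ∈ s, 0 ≤ P'.ord y := by
    intro P' hP'
    rw [← mem_place_iff]
    refine P'.toValuationSubring.sub_mem P'.toValuationSubring.one_mem ?_
    exact P'.toValuationSubring.mul_mem _ _ (P'.algebraMap_mem' _)
      ((mem_place_iff P' t).mpr (ht.2 P' (hs1 P' hP')))
  have hzero := (Finset.sum_eq_zero_iff_of_nonneg hnonneg).mp hsum
  -- but `y = -c⁻¹ (t - c)` vanishes at `P`
  have hyfac : y = -algebraMap K F c⁻¹ * (t - algebraMap K F c) := by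
    have hcc : algebraMap K F c⁻¹ * algebraMap K F c = 1 := by
      rw [← map_mul, inv_mul_cancel₀ hc0, map_one]
    rw [hy]
    linear_combination (-1 : F) * hcc
  have htc0 : t - algebraMap K F c ≠ 0 := by
    intro h0
    rw [h0] at hc
    simp at hc
  have hy0 : y ≠ 0 := by
    rw [hyfac]
    exact mul_ne_zero (neg_ne_zero.mpr hciF) htc0
  have hypos : 0 < P.ord y := by
    rw [ord_pos_iff P hy0, hyfac, ValuationSubring.mem_nonunits_iff, map_mul, Valuation.map_neg,
      mul_comm]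
    exact mul_lt_one_of_lt_of_le
      ((ValuationSubring.mem_nonunits_iff _).mp (mem_nonunits_of_ord_pos P hc))
      ((P.toValuationSubring.valuation_le_one_iff _).mpr (P.algebraMap_mem' _))
  have hPs : P ∈ s := hs2 P hP (ne_of_gt hypos)
  have := hzero P hPs
  omega

end Fermat.Agent.S18.H27
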