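import Fermat.Agent.S18.H27.DiscBasis
import Fermat.Agent.S18.H18.OneUnitLeaf

/-!
# S18 / C1 (helper27): the nodes `ev_disc` and `mo_disc` of the C1 sub-skeleton

* `mo_disc_skel` : `m_O ∩ S_b = m_A S_b` for a `Setup` (node `mo_disc`, verbatim).
* `ev_disc_skel` : the values of `S_b` on the disc lie in `A` (node `ev_disc`, verbatim), from the
  landed statement that one-units have degree `0` on every residue disc.
-/

set_option autoImplicit false

open AlgebraicCurve IntermediateField Polynomial

noncomputable section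

namespace Fermat.Agent.S18.H27

open Fermat.Agent.S18.H74

variable {K : Type*} [Field K] {A : ValuationSubring K} {F : Type*} [Field F] [Algebra K F]
  {O : ValuationSubring F} {x : F}

/-- **(EV)** values of `S_b` on the disc lie in `A` (node `ev_disc` of the C1 sub-skeleton). -/
theorem ev_disc_skel [IsAlgClosed K] [CharZero K] (hA : A ≠ ⊤) (hS : Setup K A F O x)
    (b : K) (hb : b ∈ A) (s : F) (hs : s ∈ discRing A O x b) (P : Place K F)
    (hP : InDisc A x b P) (c : K) (hc : 0 < P.ord (s - algebraMap K F c)) : c ∈ A :=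
  ev_of_one hS.mem_iff b
    (fun y hy => Fermat.Agent.S18.H18.sum_ord_eq_zero_of_oneUnit hA hS b hb y hy) s hs P hP c hc

/-- **(MO)** `m_O ∩ S_b = m_A S_b` (node `mo_disc` of the C1 sub-skeleton). -/
theorem mo_disc_skel (hS : Setup K A F O x) (b : K) (e : F) (he : e ∈ discRing A O x b)
    (heO : e ∈ O.nonunits) :
    ∃ a ∈ A.nonunits, ∃ s ∈ discRing A O x b, e = algebraMap K F a * s :=
  mo_of_scale hS.mem_iff hS.scale b e he heO

end Fermat.Agent.S18.H27
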