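import Fermat.Agent.S18.H27.RegAt

/-!
# S18 / C1 / D3 (helper27): the Gauss hypotheses and orthonormal tuples

`GaussHyp A O x` : `O ∩ K = A`, primitive polynomials in `x` are units of `O`, `A ≠ ⊤`.
`IsONx O x θ` : `θ` is orthonormal over `(K(x), O ∩ K(x))`.
-/

set_option autoImplicit false

open AlgebraicCurve IntermediateField Polynomial

noncomputable section

namespace Fermat.Agent.S18.H27

variable {K : Type*} [Field K] {F : Type*} [Field F] [Algebra K F]

/-- Scaling: a nonzero finite family of elements of `K` has an entry of maximal absolute value. -/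
theorem exists_max_index (A : ValuationSubring K) {ι : Type*} [Fintype ι] (a : ι → K)
    (ha : a ≠ 0) : ∃ j, a j ≠ 0 ∧ ∀ i, a i / a j ∈ A := by
  classical
  obtain ⟨i₀, hi₀⟩ : ∃ i, a i ≠ 0 := by
    by_contra h
    push Not at h
    exact ha (funext h)
  obtain ⟨j, hj, hmax⟩ := Finset.exists_max_image (Finset.univ.filter fun i => a i ≠ 0)
    (fun i => A.valuation (a i)) ⟨i₀, by simp [hi₀]⟩
  have hj0 : a j ≠ 0 := (Finset.mem_filter.mp hj).2
  refine ⟨j, hj0, fun i => ?_⟩
  by_cases hi : a i = 0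
  · rw [hi, zero_div]
    exact A.zero_mem
  · rw [← A.valuation_le_one_iff, map_div₀]
    have h1 := hmax i (by simp [hi])
    have h2 : A.valuation (a j) ≠ 0 := (Valuation.ne_zero_iff _).mpr hj0
    exact (div_le_one₀ (zero_lt_iff.mpr h2)).mpr h1

/-- A proper valuation subring has a nonzero nonunit. -/
theorem exists_nonunit {A : ValuationSubring K} (hA : A ≠ ⊤) :
    ∃ π : K, π ≠ 0 ∧ π ∈ A ∧ π⁻¹ ∉ A := by
  obtain ⟨y, hy⟩ : ∃ y : K, y ∉ A := by
    by_contra h
    push Not at h
    exact hA (eq_top_iff.mpr fun y _ => h y)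
  have hy0 : y ≠ 0 := fun h => hy (h ▸ A.zero_mem)
  exact ⟨y⁻¹, inv_ne_zero hy0, (A.mem_or_inv_mem y).resolve_left hy, by rwa [inv_inv]⟩

/-- The Gauss hypotheses on `(A, O, x)`. -/
structure GaussHyp (A : ValuationSubring K) (O : ValuationSubring F) (x : F) : Prop where
  mem_iff : ∀ a : K, algebraMap K F a ∈ O ↔ a ∈ A
  gauss : ∀ p : K[X], (∀ i, p.coeff i ∈ A) → (∃ i, p.coeff i ≠ 0 ∧ (p.coeff i)⁻¹ ∈ A) →
    aeval x p ∈ O ∧ (aeval x p)⁻¹ ∈ O
  ne_top : A ≠ ⊤

namespace GaussHyp

variable {A : ValuationSubring K} {O : ValuationSubring F} {x : F}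

/-- `x` is transcendental over `K`. -/
theorem transcendental (h : GaussHyp A O x) : Transcendental K x := by
  rintro ⟨p, hp0, hpx⟩
  classical
  obtain ⟨π, hπ0, hπA, hπi⟩ := exists_nonunit h.ne_top
  -- scale `p` to a primitive polynomial
  have hne : (fun i : Fin (p.natDegree + 1) => p.coeff i) ≠ 0 := by
    intro h0
    apply hp0
    have := congrFun h0 ⟨p.natDegree, Nat.lt_succ_self _⟩
    simpa using this
  obtain ⟨j, hj0, hj⟩ := exists_max_index A (fun i : Fin (p.natDegree + 1) => p.coeff i) hne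
  set lam : K := (p.coeff j)⁻¹ with hlam
  set p' : K[X] := X * (C lam * p) + C π with hp'
  have hcoeff : ∀ i, p'.coeff i ∈ A := by
    intro i
    rcases i with _ | i
    · simp [hp', hπA]
    · have : p'.coeff (i + 1) = lam * p.coeff i := by
        simp [hp', coeff_X_mul, coeff_C_mul, coeff_C]
      rw [this]
      by_cases hi : i < p.natDegree + 1
      · have := hj ⟨i, hi⟩
        simpa [hlam, div_eq_inv_mul] using this
      · rw [coeff_eq_zero_of_natDegree_lt (by omega), mul_zero]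
        exact A.zero_mem
  have hunit : ∃ i, p'.coeff i ≠ 0 ∧ (p'.coeff i)⁻¹ ∈ A := by
    refine ⟨(j : ℕ) + 1, ?_⟩
    have : p'.coeff ((j : ℕ) + 1) = 1 := by
      simp [hp', coeff_X_mul, coeff_C_mul, coeff_C, hlam, inv_mul_cancel₀ hj0]
    rw [this]
    exact ⟨one_ne_zero, by simpa using A.one_mem⟩
  have hval : aeval x p' = algebraMap K F π := by
    simp [hp', hpx]
  have h1 := (h.gauss p' hcoeff hunit).2
  rw [hval, ← map_inv₀, h.mem_iff] at h1
  exact hπi h1

/-- `x - c` is a unit of `O` for `c ∈ A`. -/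
theorem sub_mem (h : GaussHyp A O x) {c : K} (hc : c ∈ A) :
    x - algebraMap K F c ∈ O ∧ (x - algebraMap K F c)⁻¹ ∈ O := by
  have h1 := h.gauss (X - C c) (fun i => by
    rcases i with _ | _ | i
    · simpa [coeff_X, coeff_C] using hc
    · simp [coeff_X, coeff_C, A.one_mem]
    · simp [coeff_X, coeff_C, A.zero_mem]) ⟨1, by simp [coeff_X, coeff_C], by
      simp [coeff_X, coeff_C, A.one_mem]⟩
  simpa using h1

theorem algebraMap_mem (h : GaussHyp A O x) {a : K} (ha : a ∈ A) : algebraMap K F a ∈ O :=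
  (h.mem_iff a).mpr ha

end GaussHyp

/-- `θ` is orthonormal over `(K(x), O ∩ K(x))`. -/
def IsONx (O : ValuationSubring F) (x : F) {μ : ℕ} (θ : Fin μ → F) : Prop :=
  ∀ r : Fin μ → K⟮x⟯, (∑ i, (r i : F) * θ i) ∈ O ↔ ∀ i, (r i : F) ∈ O

namespace IsONx

variable {A : ValuationSubring K} {O : ValuationSubring F} {x : F} {μ : ℕ} {θ : Fin μ → F}

theorem mem (hθ : IsONx (K := K) O x θ) (i : Fin μ) : θ i ∈ O := by
  classical
  have h := (hθ (fun j => if j = i then 1 else 0)).mpr (fun j => by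
    split_ifs
    · simp [O.one_mem]
    · simp [O.zero_mem])
  have hsum : (∑ j, (((if j = i then 1 else 0 : K⟮x⟯)) : F) * θ j) = θ i := by
    rw [Finset.sum_eq_single i]
    · simp
    · intro j _ hj
      simp [hj]
    · simp
  rw [hsum] at h
  exact h

/-- An orthonormal tuple is linearly independent over `K(x)`. -/
theorem linearIndependent (hθ : IsONx (K := K) O x θ) (h : GaussHyp A O x) :
    LinearIndependent K⟮x⟯ θ := by
  classical
  rw [Fintype.linearIndependent_iff]
  intro r hr i₀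
  by_contra hne
  obtain ⟨π, hπ0, hπA, hπi⟩ := exists_nonunit h.ne_top
  set s : K⟮x⟯ := algebraMap K K⟮x⟯ π⁻¹ * (r i₀)⁻¹ with hs
  have h1 : (∑ i, ((s * r i : K⟮x⟯) : F) * θ i) ∈ O := by
    have : (∑ i, ((s * r i : K⟮x⟯) : F) * θ i) = (s : F) * ∑ i, r i • θ i := by
      rw [Finset.mul_sum]
      refine Finset.sum_congr rfl fun i _ => ?_
      rw [IntermediateField.smul_def, smul_eq_mul]
      push_cast
      ring
    rw [this, hr, mul_zero]
    exact O.zero_mem
  have h2 := (hθ (fun i => s * r i)).mp h1 i₀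
  have h3 : ((s * r i₀ : K⟮x⟯) : F) = algebraMap K F π⁻¹ := by
    have : s * r i₀ = algebraMap K K⟮x⟯ π⁻¹ := by
      rw [hs, mul_assoc, inv_mul_cancel₀ hne, mul_one]
    rw [this]
    rfl
  rw [h3, h.mem_iff] at h2
  exact hπi h2

end IsONx

end Fermat.Agent.S18.H27
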