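import Fermat.Agent.S18.H27.MinTuple
import Fermat.Agent.S18.H42.Chart

/-!
# S18 / C1 / D3 (helper27): functions without poles over `x = c` are integral over `K[x]_(x-c)`

`isIntegral_regRing_of_mem_overRing` discharges the only place-theoretic input of
`exists_minTuple`; `exists_minTuple'` is the resulting unconditional statement.
-/

set_option autoImplicit false

open AlgebraicCurve IntermediateField Polynomial IsDedekindDomain

open scoped IntermediateField.algebraAdjoinAdjoin

noncomputable section

namespace Fermat.Agent.S18.H27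

open Fermat.Agent.S18.H42
open scoped Fermat.Agent.S18.H42.ChartInst

variable {K : Type*} [Field K] {F : Type*} [Field F] [Algebra K F] {x : F}

/-- A function without poles over `x = c` becomes integral over `K[x]` after multiplication by a
polynomial in `x` not vanishing at `c`. -/
theorem exists_aeval_mul_isIntegral [CharZero K] [FiniteDimensional K⟮x⟯ F]
    (hx : Transcendental K x) (c : K) {f : F} (hf : f ∈ overRing x c) :
    ∃ D : K[X], D.eval c ≠ 0 ∧ IsIntegral (Rx K x) (aeval x D * f) := by
  classical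
  have : Fact (Transcendental K x) := ⟨hx⟩
  obtain ⟨y, hy0, hy⟩ := exists_integral_multiples (Rx K x) K⟮x⟯ ({f} : Finset F)
  have hyf : IsIntegral (Rx K x) (y • f) := hy f (Finset.mem_singleton_self f)
  obtain ⟨D₀, hD₀⟩ : ∃ D : K[X], aeval x D = (y : F) := by
    have h1 : (y : F) ∈ (Algebra.adjoin K {x} : Subalgebra K F) := y.2
    have h2 : (y : F) ∈ (aeval x : K[X] →ₐ[K] F).range := by
      rw [← Algebra.adjoin_singleton_eq_range_aeval]
      exact h1
    exact h2
  have hD₀0 : D₀ ≠ 0 := by
    rintro rfl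
    apply hy0
    ext
    simpa using hD₀.symm
  obtain ⟨D₁, hD₁, hD₁'⟩ := exists_eq_pow_rootMultiplicity_mul_and_not_dvd D₀ hD₀0 c
  have hD₁c : D₁.eval c ≠ 0 := fun h => hD₁' (dvd_iff_isRoot.mpr h)
  set k := D₀.rootMultiplicity c with hk
  set t : F := x - algebraMap K F c with ht
  have hyt : (y : F) = t ^ k * aeval x D₁ := by
    rw [← hD₀]
    have := congrArg (aeval x) hD₁
    simpa only [map_mul, map_pow, map_sub, aeval_X, aeval_C] using this
  refine ⟨D₁, hD₁c, ?_⟩
  set g : F := aeval x D₁ * f with hg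
  have htg : t ^ k * g = y • f := by
    rw [hg, ← mul_assoc, ← hyt]
    rfl
  -- `g` lies in the integral closure: check all height-one primes
  have hmem : g ∈ (algebraMap (Bx K x) F).range := by
    apply HeightOneSpectrum.mem_integers_of_valuation_le_one F g
    intro v
    by_cases hg0 : g = 0
    · rw [hg0, map_zero]
      exact zero_le_one
    by_cases hv : xsubB K x c ∈ v.asIdeal
    · have hover : 0 < (chartPlace K x v).ord (x - algebraMap K F c) :=
        (chartPlace_over_iff v c).mpr hv
      have h1 : g ∈ (chartPlace K x v).toValuationSubring :=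
        (overRing x c).mul_mem (aeval_mem_overRing x c D₁) hf _ hover
      have h2 : 0 ≤ (chartPlace K x v).ord g := (mem_place_iff _ g).mp h1
      rw [chartPlace_ord v hg0] at h2
      exact (primeOrd_nonneg_iff v hg0).mp h2
    · have h1 : v.valuation F t = 1 := by
        have hle : v.valuation F (algebraMap (Bx K x) F (xsubB K x c)) ≤ 1 :=
          v.valuation_le_one _
        have hnlt : ¬ v.valuation F (algebraMap (Bx K x) F (xsubB K x c)) < 1 := by
          rw [v.valuation_lt_one_iff_mem]
          exact hv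
        rw [coe_xsubB] at hle hnlt
        exact le_antisymm hle (not_lt.mp hnlt)
      have h2 : v.valuation F (t ^ k * g) ≤ 1 := by
        rw [htg]
        have : y • f = algebraMap (Bx K x) F ⟨y • f, hyf⟩ := rfl
        rw [this]
        exact v.valuation_le_one _
      rwa [map_mul, map_pow, h1, one_pow, one_mul] at h2
  obtain ⟨b, hb⟩ := hmem
  rw [← hb]
  exact b.2

/-- **F3-local**: a function without poles over `x = c` is integral over `K[x]_(x-c)`. -/
theorem isIntegral_regRing_of_mem_overRing [CharZero K] [FiniteDimensional K⟮x⟯ F]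
    (hx : Transcendental K x) (c : K) {f : F} (hf : f ∈ overRing x c) :
    IsIntegral (regRing hx c) f := by
  obtain ⟨D, hDc, hD⟩ := exists_aeval_mul_isIntegral hx c hf
  have hD0 : D ≠ 0 := by
    rintro rfl
    simp at hDc
  have hDx : aeval x D ≠ 0 := aeval_ne_zero_of_transcendental hx hD0
  -- `K[x] → K[x]_(x-c)`
  let φ : Rx K x →+* regRing hx c :=
    { toFun := fun r => ⟨⟨(r : F), algebra_adjoin_le_adjoin K {x} r.2⟩, by
        obtain ⟨p, hp⟩ : ∃ p : K[X], aeval x p = (r : F) := by
          have h1 : (r : F) ∈ (Algebra.adjoin K {x} : Subalgebra K F) := r.2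
          have h2 : (r : F) ∈ (aeval x : K[X] →ₐ[K] F).range := by
            rw [← Algebra.adjoin_singleton_eq_range_aeval]
            exact h1
          exact h2
        show RegAt x c (r : F)
        rw [← hp]
        exact regAt_aeval x c p⟩
      map_one' := rfl
      map_mul' := fun _ _ => rfl
      map_zero' := rfl
      map_add' := fun _ _ => rfl }
  have h1 : IsIntegral (regRing hx c) (aeval x D * f) := by
    obtain ⟨p, hpm, hp⟩ := hD
    refine ⟨p.map φ, hpm.map φ, ?_⟩
    rw [← hp, Polynomial.eval₂_map]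
    rfl
  -- the unit `D(x)⁻¹` of `K[x]_(x-c)`
  have hreg : RegAt x c (aeval x D)⁻¹ := ⟨1, D, hDc, by
    rw [inv_mul_cancel₀ hDx]
    simp⟩
  have hmemE : (aeval x D)⁻¹ ∈ K⟮x⟯ :=
    K⟮x⟯.inv_mem ((mem_adjoin_simple_iff K _).mpr ⟨D, 1, by simp⟩)
  let u : regRing hx c := ⟨⟨(aeval x D)⁻¹, hmemE⟩, hreg⟩
  have h2 : f = algebraMap (regRing hx c) F u * (aeval x D * f) := by
    show f = (aeval x D)⁻¹ * (aeval x D * f)
    rw [← mul_assoc, inv_mul_cancel₀ hDx, one_mul]
  rw [h2]
  exact isIntegral_algebraMap.mul h1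

/-- **The minimal tuple** (C1/D3), unconditional form. -/
theorem exists_minTuple' {A : ValuationSubring K} {O : ValuationSubring F} [CharZero K]
    [FiniteDimensional K⟮x⟯ F] (h : GaussHyp A O x)
    (θ₀ : Fin (Module.finrank K⟮x⟯ F) → F) (hθ₀ : IsONx (K := K) O x θ₀)
    (hgr₀ : ((Algebra.discr K⟮x⟯ θ₀ : K⟮x⟯) : F)⁻¹ ∈ O) {b : K} (hb : b ∈ A) :
    ∃ θ : Fin (Module.finrank K⟮x⟯ F) → F, IsONx (K := K) O x θ ∧
      (∀ i, InDiscRing A O x b (θ i)) ∧ IsDiscBasis A x b θ ∧
      ((Algebra.discr K⟮x⟯ θ : K⟮x⟯) : F)⁻¹ ∈ O :=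
  exists_minTuple h θ₀ hθ₀ hgr₀ hb fun c _ _ hf =>
    isIntegral_regRing_of_mem_overRing h.transcendental c hf

end Fermat.Agent.S18.H27
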