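import Fermat.Agent.S18.H27.MinTupleB

/-!
# S18 / C1 / D3 (helper27): the minimal tuple

`exists_minTuple` : under the Gauss hypotheses, given one orthonormal `K(x)`-basis of `F` and the
fact that functions without poles over `x = c` are integral over `K[x]_(x-c)` for every `c` in
the residue disc of `b`, there is an orthonormal tuple `θ` inside the disc ring `S_b` which is a
basis of the functions without poles over `c` over `K[x]_(x-c)` for EVERY `c` in the disc.
Consequently `S_b = ⊕ R_b θ_i` (`coord_mem_discRing`).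
-/

set_option autoImplicit false

open AlgebraicCurve IntermediateField Polynomial

noncomputable section

namespace Fermat.Agent.S18.H27

variable {K : Type*} [Field K] {F : Type*} [Field F] [Algebra K F]

/-- `f ∈ S_b`: `f ∈ O` has no poles at the places over the residue disc of `b`. -/
def InDiscRing (A : ValuationSubring K) (O : ValuationSubring F) (x : F) (b : K) (f : F) : Prop :=
  f ∈ O ∧ ∀ c : K, c - b ∈ A.nonunits → f ∈ overRing x c

/-- `InDiscRing` in terms of `Place.ord` (the shape of the skeleton's `discRing`). -/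
theorem inDiscRing_iff (A : ValuationSubring K) (O : ValuationSubring F) (x : F) (b : K) (f : F) :
    InDiscRing A O x b f ↔ f ∈ O ∧ ∀ P : Place K F,
      (∃ c : K, c - b ∈ A.nonunits ∧ 0 < P.ord (x - algebraMap K F c)) → 0 ≤ P.ord f := by
  refine and_congr Iff.rfl ⟨fun h P ⟨c, hc, hP⟩ => ?_, fun h c hc => ?_⟩
  · exact mem_overRing_iff_ord.mp (h c hc) P hP
  · exact mem_overRing_iff_ord.mpr fun P hP => h P ⟨c, hc, hP⟩

variable {A : ValuationSubring K} {O : ValuationSubring F} {x : F}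

/-- `θ` is a local basis at every point of the residue disc of `b`. -/
def IsDiscBasis (A : ValuationSubring K) (x : F) (b : K) {μ : ℕ} (θ : Fin μ → F) : Prop :=
  ∀ c : K, c - b ∈ A.nonunits → ∀ r : Fin μ → K⟮x⟯,
    (∑ i, (r i : F) * θ i) ∈ overRing x c → ∀ i, RegAt x c (r i : F)

/-- The induction on the degree of a numerator of the discriminant. -/
theorem minTuple_aux [CharZero K] [FiniteDimensional K⟮x⟯ F] (h : GaussHyp A O x) {b : K}
    (hb : b ∈ A)
    (hint : ∀ c : K, c - b ∈ A.nonunits → ∀ f ∈ overRing x c,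
      IsIntegral (regRing h.transcendental c) f) :
    ∀ n : ℕ, ∀ θ : Fin (Module.finrank K⟮x⟯ F) → F, IsONx (K := K) O x θ →
      (∀ i, InDiscRing A O x b (θ i)) → ((Algebra.discr K⟮x⟯ θ : K⟮x⟯) : F)⁻¹ ∈ O →
      ∀ p q : K[X], q ≠ 0 →
      ((Algebra.discr K⟮x⟯ θ : K⟮x⟯) : F) * aeval x q = aeval x p → p.natDegree = n →
      ∃ θ' : Fin (Module.finrank K⟮x⟯ F) → F, IsONx (K := K) O x θ' ∧
        (∀ i, InDiscRing A O x b (θ' i)) ∧ IsDiscBasis A x b θ' ∧
        ((Algebra.discr K⟮x⟯ θ' : K⟮x⟯) : F)⁻¹ ∈ O := by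
  classical
  have hx := h.transcendental
  have : CharZero K⟮x⟯ := charZero_of_injective_algebraMap (algebraMap K K⟮x⟯).injective
  intro n
  induction n using Nat.strong_induction_on with
  | _ n ih =>
    intro θ hON hmem hgr p q hq hpq hn
    by_cases hgood : IsDiscBasis A x b θ
    · exact ⟨θ, hON, hmem, hgood, hgr⟩
    unfold IsDiscBasis at hgood
    push Not at hgood
    obtain ⟨c, hc, r, hf, i₀, hbad⟩ := hgood
    have hcA : c ∈ A := by
      have := A.add_mem _ _ (A.nonunits_le hc) hb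
      simpa using this
    have hθc : ∀ i, θ i ∈ overRing x c := fun i => (hmem i).2 c hc
    obtain ⟨a, ha0, hg₀⟩ := exists_swap hx hθc r hf i₀ hbad
    obtain ⟨j, hj0, hj⟩ := exists_max_index A a ha0
    set a' : Fin (Module.finrank K⟮x⟯ F) → K := fun i => a i / a j with ha'
    have ha'j : a' j = 1 := div_self hj0
    set t : F := x - algebraMap K F c with ht
    have ht0 : t ≠ 0 := by
      have := aeval_ne_zero_of_transcendental hx (X_sub_C_ne_zero c)
      simpa [ht] using this
    have hg : t⁻¹ * ∑ i, algebraMap K F (a' i) * θ i ∈ overRing x c := by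
      have h1 : t⁻¹ * ∑ i, algebraMap K F (a' i) * θ i =
          algebraMap K F (a j)⁻¹ * (t⁻¹ * ∑ i, algebraMap K F (a i) * θ i) := by
        simp only [ha', div_eq_mul_inv, map_mul, Finset.mul_sum]
        exact Finset.sum_congr rfl fun i _ => by ring
      rw [h1]
      exact (overRing x c).mul_mem ((overRing x c).algebraMap_mem _) hg₀
    set θ' := swapTuple x θ j c a' with hθ'
    have hON' : IsONx (K := K) O x θ' := isONx_swap h hON j hcA a' hj ha'j
    have hmem' : ∀ i, InDiscRing A O x b (θ' i) := by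
      intro i
      by_cases hi : i = j
      · subst hi
        rw [hθ', swapTuple_self]
        refine ⟨?_, fun c' hc' => ?_⟩
        · refine O.mul_mem _ _ (h.sub_mem hcA).2 ?_
          exact sum_mem fun i _ => O.mul_mem _ _ (h.algebraMap_mem (hj i)) (hON.mem i)
        · by_cases hcc : c' = c
          · subst hcc
            exact hg
          · refine (overRing x c').mul_mem ?_ (sum_mem fun i _ =>
              (overRing x c').mul_mem ((overRing x c').algebraMap_mem _) ((hmem i).2 c' hc'))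
            have := inv_aeval_mem_overRing x (c := c') (q := X - C c)
              (by simp [sub_ne_zero, hcc])
            simpa using this
      · rw [hθ', swapTuple_of_ne x θ hi]
        exact hmem i
    have hdiscr : Algebra.discr K⟮x⟯ θ' = ((tE x c)⁻¹) ^ 2 * Algebra.discr K⟮x⟯ θ :=
      discr_swap x θ j c a' ha'j
    have hreg : RegAt x c ((Algebra.discr K⟮x⟯ θ' : K⟮x⟯) : F) :=
      regAt_discr hx (hint c hc) θ' (fun i => (hmem' i).2 c hc)
    obtain ⟨p', q', hq'c, h'⟩ := hreg
    have hd0 : Algebra.discr K⟮x⟯ θ ≠ 0 := by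
      have hli := hON.linearIndependent h
      have : Nonempty (Fin (Module.finrank K⟮x⟯ F)) := Fin.pos_iff_nonempty.mp Module.finrank_pos
      have := Algebra.discr_not_zero_of_basis K⟮x⟯
        (basisOfLinearIndependentOfCardEqFinrank hli (by simp))
      rwa [coe_basisOfLinearIndependentOfCardEqFinrank] at this
    have hqx := aeval_ne_zero_of_transcendental hx hq
    have hdF : ((Algebra.discr K⟮x⟯ θ' : K⟮x⟯) : F) * t ^ 2 =
        ((Algebra.discr K⟮x⟯ θ : K⟮x⟯) : F) := by
      rw [hdiscr]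
      push_cast
      rw [coe_tE, ← ht]
      field_simp
    have hpoly : p' * (X - C c) ^ 2 * q = p * q' := by
      apply eq_of_aeval_eq hx
      simp only [map_mul, map_pow, map_sub, aeval_X, aeval_C]
      rw [← h', ← hpq, ← hdF]
      ring
    have hpc : p.eval c = 0 := by
      have h1 := congrArg (Polynomial.eval c) hpoly
      simp only [eval_mul, eval_pow, eval_sub, eval_X, eval_C, sub_self, ne_eq,
        OfNat.ofNat_ne_zero, not_false_eq_true, zero_pow, mul_zero, zero_mul] at h1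
      rcases mul_eq_zero.mp h1.symm with h2 | h2
      · exact h2
      · exact absurd h2 hq'c
    obtain ⟨p₁, hp₁⟩ := dvd_iff_isRoot.mpr hpc
    have hp0 : p ≠ 0 := by
      rintro rfl
      rw [map_zero] at hpq
      rcases mul_eq_zero.mp hpq with h1 | h1
      · exact hd0 (by exact_mod_cast h1)
      · exact hqx h1
    have hp₁0 : p₁ ≠ 0 := by
      rintro rfl
      exact hp0 (by rw [hp₁, mul_zero])
    have hdeg : p₁.natDegree < n := by
      rw [← hn, hp₁, natDegree_mul (X_sub_C_ne_zero c) hp₁0, natDegree_X_sub_C]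
      omega
    have hgr' : ((Algebra.discr K⟮x⟯ θ' : K⟮x⟯) : F)⁻¹ ∈ O := by
      have h1 : ((Algebra.discr K⟮x⟯ θ' : K⟮x⟯) : F)⁻¹ =
          t ^ 2 * ((Algebra.discr K⟮x⟯ θ : K⟮x⟯) : F)⁻¹ := by
        rw [← hdF, mul_inv, mul_comm, mul_assoc, inv_mul_cancel₀ (pow_ne_zero 2 ht0), mul_one]
      rw [h1]
      exact O.mul_mem _ _ (O.pow_mem (h.sub_mem hcA).1 2) hgr
    refine ih p₁.natDegree hdeg θ' hON' hmem' hgr' p₁ ((X - C c) * q)
      (mul_ne_zero (X_sub_C_ne_zero c) hq) ?_ rfl
    simp only [map_mul, map_sub, aeval_X, aeval_C]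
    have hp₁x : aeval x p = t * aeval x p₁ := by
      rw [hp₁]
      simp [ht]
    apply mul_left_cancel₀ ht0
    rw [← hp₁x, ← hpq, ← hdF]
    ring

/-- **The minimal tuple** (C1/D3). -/
theorem exists_minTuple [CharZero K] [FiniteDimensional K⟮x⟯ F] (h : GaussHyp A O x)
    (θ₀ : Fin (Module.finrank K⟮x⟯ F) → F) (hθ₀ : IsONx (K := K) O x θ₀)
    (hgr₀ : ((Algebra.discr K⟮x⟯ θ₀ : K⟮x⟯) : F)⁻¹ ∈ O) {b : K} (hb : b ∈ A)
    (hint : ∀ c : K, c - b ∈ A.nonunits → ∀ f ∈ overRing x c,
      IsIntegral (regRing h.transcendental c) f) :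
    ∃ θ : Fin (Module.finrank K⟮x⟯ F) → F, IsONx (K := K) O x θ ∧
      (∀ i, InDiscRing A O x b (θ i)) ∧ IsDiscBasis A x b θ ∧
      ((Algebra.discr K⟮x⟯ θ : K⟮x⟯) : F)⁻¹ ∈ O := by
  obtain ⟨u, hu, hui, hON₁, hθ₁⟩ := exists_on_integral h θ₀ hθ₀
  set θ₁ : Fin (Module.finrank K⟮x⟯ F) → F := fun i => (u : F) * θ₀ i with hθ₁def
  have hmem₁ : ∀ i, InDiscRing A O x b (θ₁ i) := fun i => ⟨hON₁.mem i, fun c _ => hθ₁ i c⟩
  have hgr₁ : ((Algebra.discr K⟮x⟯ θ₁ : K⟮x⟯) : F)⁻¹ ∈ O := by
    rw [hθ₁def, discr_mul_tuple]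
    push_cast
    rw [mul_inv]
    refine O.mul_mem _ _ ?_ hgr₀
    rw [← inv_pow, ← inv_pow]
    exact O.pow_mem (O.pow_mem hui _) _
  obtain ⟨p, q, hpq⟩ := (mem_adjoin_simple_iff K _).mp (Algebra.discr K⟮x⟯ θ₁).2
  by_cases hq : q = 0
  · rw [hq, map_zero, div_zero] at hpq
    exact minTuple_aux h hb hint _ θ₁ hON₁ hmem₁ hgr₁ 0 1 one_ne_zero (by rw [hpq]; simp) rfl
  · have hqx := aeval_ne_zero_of_transcendental h.transcendental hq
    refine minTuple_aux h hb hint _ θ₁ hON₁ hmem₁ hgr₁ p q hq ?_ rfl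
    rw [hpq]
    field_simp

/-- `S_b = ⊕ R_b θ_i`: the `K(x)`-coordinates of an element of the disc ring with respect to a
disc basis lie in the disc ring. -/
theorem coord_mem_discRing (h : GaussHyp A O x) {b : K} {μ : ℕ} {θ : Fin μ → F}
    (hON : IsONx (K := K) O x θ) (hθ : IsDiscBasis A x b θ) (r : Fin μ → K⟮x⟯)
    (hf : InDiscRing A O x b (∑ i, (r i : F) * θ i)) (i : Fin μ) :
    InDiscRing A O x b (r i : F) :=
  ⟨(hON r).mp hf.1 i, fun c hc => (hθ c hc r (hf.2 c hc) i).mem_overRing h.transcendental⟩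

end Fermat.Agent.S18.H27
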