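import Fermat.Agent.S18.H27.GaussHyp

/-!
# S18 / C1 / D3 (helper27): ingredients of the minimal tuple

* `exists_on_integral` : an orthonormal tuple can be made pole-free at all finite places
  (multiply by a primitive polynomial in `x`).
* `regAt_discr` : the discriminant of a tuple without poles over `x = c` is regular at `c`
  (given that functions without poles over `c` are integral over `K[x]_(x-c)`).
* `exists_swap` : if a tuple without poles over `c` is not a local basis at `c`, then
  `(x-c)⁻¹ ∑ a_i θ_i` has no poles over `c` for some nonzero constant vector `a`.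
-/

set_option autoImplicit false

open AlgebraicCurve IntermediateField Polynomial

open scoped IntermediateField.algebraAdjoinAdjoin

noncomputable section

namespace Fermat.Agent.S18.H27

variable {K : Type*} [Field K] {F : Type*} [Field F] [Algebra K F]

/-- An element integral over `K[x]` has no poles over `x = c`. -/
theorem mem_overRing_of_isIntegral (x : F) (c : K) {z : F}
    (hz : IsIntegral (Algebra.adjoin K {x}) z) : z ∈ overRing x c := by
  intro P hP
  have : IsIntegrallyClosedIn P.toValuationSubring.toSubring F :=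
    inferInstanceAs (IsIntegrallyClosedIn P.toValuationSubring F)
  have hle : (integralClosure (Algebra.adjoin K {x}) F).toSubring ≤
      P.toValuationSubring.toSubring := by
    rw [Subring.integralClosure_le_iff]
    intro r
    have h : Algebra.adjoin K {x} ≤ overRing x c :=
      Algebra.adjoin_le (Set.singleton_subset_iff.mpr (self_mem_overRing x c))
    exact h r.2 P hP
  exact hle hz

variable {A : ValuationSubring K} {O : ValuationSubring F} {x : F}

/-- Step 0: an orthonormal tuple can be made pole-free at all finite places. -/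
theorem exists_on_integral [FiniteDimensional K⟮x⟯ F] (h : GaussHyp A O x) {μ : ℕ}
    (θ₀ : Fin μ → F) (hθ₀ : IsONx (K := K) O x θ₀) :
    ∃ u : K⟮x⟯, (u : F) ∈ O ∧ (u : F)⁻¹ ∈ O ∧
      IsONx (K := K) O x (fun i => (u : F) * θ₀ i) ∧
      ∀ i, ∀ c : K, (u : F) * θ₀ i ∈ overRing x c := by
  classical
  obtain ⟨y, hy0, hy⟩ := exists_integral_multiples (Algebra.adjoin K {x}) K⟮x⟯
    (Finset.univ.image θ₀)
  obtain ⟨D, hD⟩ : ∃ D : K[X], aeval x D = (y : F) := by
    have h1 : (y : F) ∈ (Algebra.adjoin K {x} : Subalgebra K F) := y.2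
    have h2 : (y : F) ∈ (aeval x : K[X] →ₐ[K] F).range := by
      rw [← Algebra.adjoin_singleton_eq_range_aeval]
      exact h1
    exact h2
  have hD0 : D ≠ 0 := by
    rintro rfl
    apply hy0
    ext
    simpa using hD.symm
  have hne : (fun i : Fin (D.natDegree + 1) => D.coeff i) ≠ 0 := by
    intro h0
    apply hD0
    have := congrFun h0 ⟨D.natDegree, Nat.lt_succ_self _⟩
    simpa using this
  obtain ⟨j, hj0, hj⟩ := exists_max_index A (fun i : Fin (D.natDegree + 1) => D.coeff i) hne
  set lam : K := (D.coeff j)⁻¹ with hlam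
  have hcoeff : ∀ i, (C lam * D).coeff i ∈ A := by
    intro i
    rw [coeff_C_mul]
    by_cases hi : i < D.natDegree + 1
    · have := hj ⟨i, hi⟩
      simpa [hlam, div_eq_inv_mul] using this
    · rw [coeff_eq_zero_of_natDegree_lt (by omega), mul_zero]
      exact A.zero_mem
  have hunit : ∃ i, (C lam * D).coeff i ≠ 0 ∧ ((C lam * D).coeff i)⁻¹ ∈ A := by
    refine ⟨(j : ℕ), ?_⟩
    have : (C lam * D).coeff (j : ℕ) = 1 := by
      rw [coeff_C_mul, hlam, inv_mul_cancel₀ hj0]
    rw [this]
    exact ⟨one_ne_zero, by simp [A.one_mem]⟩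
  obtain ⟨hu, hui⟩ := h.gauss (C lam * D) hcoeff hunit
  set u : F := aeval x (C lam * D) with hu_def
  have hu_eq : u = algebraMap K F lam * (y : F) := by
    rw [hu_def, map_mul, aeval_C, hD]
  have hu0 : u ≠ 0 := by
    rw [hu_eq]
    refine mul_ne_zero ?_ ?_
    · simpa [hlam] using hj0
    · simpa using hy0
  have huE : u ∈ K⟮x⟯ := (mem_adjoin_simple_iff K _).mpr ⟨C lam * D, 1, by simp [hu_def]⟩
  refine ⟨⟨u, huE⟩, hu, hui, fun r => ?_, fun i c => ?_⟩
  · show (∑ i, (r i : F) * (u * θ₀ i)) ∈ O ↔ _
    rw [← hθ₀ r]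
    have hsum : (∑ i, (r i : F) * (u * θ₀ i)) = u * ∑ i, (r i : F) * θ₀ i := by
      rw [Finset.mul_sum]
      exact Finset.sum_congr rfl fun i _ => by ring
    rw [hsum]
    constructor
    · intro hmem
      have := O.mul_mem _ _ hui hmem
      rwa [← mul_assoc, inv_mul_cancel₀ hu0, one_mul] at this
    · intro hmem
      exact O.mul_mem _ _ hu hmem
  · have h1 : IsIntegral (Algebra.adjoin K {x}) (y • θ₀ i) :=
      hy (θ₀ i) (Finset.mem_image_of_mem _ (Finset.mem_univ i))
    have h2 := mem_overRing_of_isIntegral x c h1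
    have h3 : u * θ₀ i = algebraMap K F lam * (y • θ₀ i) := by
      rw [hu_eq, mul_assoc]
      rfl
    show u * θ₀ i ∈ overRing x c
    rw [h3]
    exact (overRing x c).mul_mem ((overRing x c).algebraMap_mem lam) h2

/-- The trace of a function without poles over `c` is regular at `c`. -/
theorem regAt_trace [FiniteDimensional K⟮x⟯ F] (hx : Transcendental K x) {c : K}
    (hint : ∀ f ∈ overRing x c, IsIntegral (regRing hx c) f) {f : F} (hf : f ∈ overRing x c) :
    RegAt x c ((Algebra.trace K⟮x⟯ F f : K⟮x⟯) : F) := by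
  have h1 : IsIntegral (regRing hx c) (Algebra.trace K⟮x⟯ F f) :=
    Algebra.isIntegral_trace (hint f hf)
  obtain ⟨y, hy⟩ := IsIntegrallyClosed.isIntegral_iff.mp h1
  rw [← hy]
  exact y.2

/-- The discriminant of a tuple without poles over `c` is regular at `c`. -/
theorem regAt_discr [FiniteDimensional K⟮x⟯ F] (hx : Transcendental K x) {c : K}
    (hint : ∀ f ∈ overRing x c, IsIntegral (regRing hx c) f) {μ : ℕ} (θ : Fin μ → F)
    (hθ : ∀ i, θ i ∈ overRing x c) :
    RegAt x c ((Algebra.discr K⟮x⟯ θ : K⟮x⟯) : F) := by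
  classical
  let M₀ : Matrix (Fin μ) (Fin μ) (regRing hx c) := Matrix.of fun i j =>
    ⟨Algebra.trace K⟮x⟯ F (θ i * θ j),
      regAt_trace hx hint ((overRing x c).mul_mem (hθ i) (hθ j))⟩
  have hM : Algebra.traceMatrix K⟮x⟯ θ = M₀.map (regRing hx c).subtype := by
    ext i j
    simp [M₀, Algebra.traceMatrix_apply, Algebra.traceForm_apply]
  rw [Algebra.discr_def, hM]
  show RegAt x c (((regRing hx c).subtype.mapMatrix M₀).det : K⟮x⟯)
  rw [← RingHom.map_det]
  exact (M₀.det).2

/-- The swap lemma: a tuple without poles over `c` which is not a local basis at `c` has a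
nonzero constant vector `a` such that `(x-c)⁻¹ ∑ a_i θ_i` has no poles over `c`. -/
theorem exists_swap (hx : Transcendental K x) {c : K} {μ : ℕ} {θ : Fin μ → F}
    (hθ : ∀ i, θ i ∈ overRing x c) (r : Fin μ → K⟮x⟯)
    (hf : (∑ i, (r i : F) * θ i) ∈ overRing x c) (i₀ : Fin μ)
    (hbad : ¬ RegAt x c (r i₀ : F)) :
    ∃ a : Fin μ → K, a ≠ 0 ∧
      (x - algebraMap K F c)⁻¹ * ∑ i, algebraMap K F (a i) * θ i ∈ overRing x c := by
  classical
  set t : F := x - algebraMap K F c with ht
  have ht0 : t ≠ 0 := by
    have := aeval_ne_zero_of_transcendental hx (X_sub_C_ne_zero c)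
    simpa using this
  have htreg : RegAt x c t := by
    have := regAt_aeval x c (X - C c)
    simpa [ht] using this
  have htmem : t ∈ overRing x c :=
    (overRing x c).sub_mem (self_mem_overRing x c) ((overRing x c).algebraMap_mem c)
  have hex : ∃ N : ℕ, ∀ i, RegAt x c (t ^ N * (r i : F)) := by
    choose Ni hNi using fun i => exists_pow_mul_regAt hx c (r i).2
    refine ⟨∑ i, Ni i, fun i => ?_⟩
    have hle : Ni i ≤ ∑ i, Ni i := Finset.single_le_sum (fun _ _ => Nat.zero_le _)
      (Finset.mem_univ i)
    obtain ⟨d, hd⟩ := Nat.exists_eq_add_of_le hle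
    rw [hd, pow_add, mul_right_comm]
    exact (hNi i).mul (htreg.pow d)
  have hN0 : Nat.find hex ≠ 0 := by
    intro h0
    have := Nat.find_spec hex i₀
    rw [h0, pow_zero, one_mul] at this
    exact hbad this
  obtain ⟨M, hM⟩ := Nat.exists_eq_succ_of_ne_zero hN0
  have hspec := Nat.find_spec hex
  rw [hM] at hspec
  have hmin : ¬ ∀ i, RegAt x c (t ^ M * (r i : F)) :=
    Nat.find_min hex (by omega)
  choose a σ hσ hdecomp using fun i => (hspec i).exists_eq_add hx
  have hcancel : ∀ i, t ^ M * (r i : F) = t⁻¹ * algebraMap K F (a i) + σ i := by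
    intro i
    have := hdecomp i
    rw [pow_succ] at this
    field_simp
    linear_combination this
  refine ⟨a, ?_, ?_⟩
  · intro ha
    apply hmin
    intro i
    rw [hcancel i, ha]
    simpa using hσ i
  · have hkey : t⁻¹ * ∑ i, algebraMap K F (a i) * θ i =
        t ^ M * (∑ i, (r i : F) * θ i) - ∑ i, σ i * θ i := by
      rw [Finset.mul_sum, Finset.mul_sum, ← Finset.sum_sub_distrib]
      refine Finset.sum_congr rfl fun i _ => ?_
      rw [← mul_assoc (t ^ M), hcancel i]
      ring
    rw [hkey]
    refine (overRing x c).sub_mem ((overRing x c).mul_mem ((overRing x c).pow_mem htmem M) hf) ?_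
    exact (overRing x c).sum_mem fun i _ =>
      (overRing x c).mul_mem ((hσ i).mem_overRing hx) (hθ i)

end Fermat.Agent.S18.H27
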