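import Fermat.Agent.S18.H27.MinTupleA

/-!
# S18 / C1 / D3 (helper27): the swap step

For an orthonormal tuple `θ`, a point `c ∈ A`, an index `j` and constants `a_i ∈ A` with
`a_j = 1`, the swapped tuple replaces `θ_j` by `(x-c)⁻¹ ∑ a_i θ_i`.  It is again orthonormal and
its discriminant is `(x-c)⁻² disc θ`.
-/

set_option autoImplicit false

open AlgebraicCurve IntermediateField Polynomial Matrix

noncomputable section

namespace Fermat.Agent.S18.H27

variable {K : Type*} [Field K] {F : Type*} [Field F] [Algebra K F]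

/-- The element `x - c` of `K(x)`. -/
def tE (x : F) (c : K) : K⟮x⟯ := AdjoinSimple.gen K x - algebraMap K K⟮x⟯ c

@[simp]
theorem coe_tE (x : F) (c : K) : ((tE x c : K⟮x⟯) : F) = x - algebraMap K F c := rfl

/-- The swapped tuple. -/
def swapTuple (x : F) {μ : ℕ} (θ : Fin μ → F) (j : Fin μ) (c : K) (a : Fin μ → K) : Fin μ → F :=
  Function.update θ j ((x - algebraMap K F c)⁻¹ * ∑ i, algebraMap K F (a i) * θ i)

theorem swapTuple_self (x : F) {μ : ℕ} (θ : Fin μ → F) (j : Fin μ) (c : K) (a : Fin μ → K) :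
    swapTuple x θ j c a j = (x - algebraMap K F c)⁻¹ * ∑ i, algebraMap K F (a i) * θ i := by
  rw [swapTuple, Function.update_self]

theorem swapTuple_of_ne (x : F) {μ : ℕ} (θ : Fin μ → F) {j l : Fin μ} (hl : l ≠ j) (c : K)
    (a : Fin μ → K) : swapTuple x θ j c a l = θ l := by
  rw [swapTuple, Function.update_of_ne hl]

/-- The discriminant of the swapped tuple. -/
theorem discr_swap (x : F) {μ : ℕ} (θ : Fin μ → F) (j : Fin μ) (c : K) (a : Fin μ → K)
    (haj : a j = 1) :
    Algebra.discr K⟮x⟯ (swapTuple x θ j c a) = ((tE x c)⁻¹) ^ 2 * Algebra.discr K⟮x⟯ θ := by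
  classical
  set P : Matrix (Fin μ) (Fin μ) K⟮x⟯ :=
    (1 : Matrix (Fin μ) (Fin μ) K⟮x⟯).updateCol j
      (fun i => algebraMap K K⟮x⟯ (a i) * (tE x c)⁻¹) with hP
  have hdet : P.det = (tE x c)⁻¹ := by
    rw [hP, ← Matrix.cramer_apply, Matrix.cramer_one]
    simp [haj]
  have hvec : swapTuple x θ j c a = θ ᵥ* P.map (algebraMap K⟮x⟯ F) := by
    ext l
    simp only [Matrix.vecMul, dotProduct, Matrix.map_apply]
    by_cases hl : l = j
    · subst hl
      rw [swapTuple_self, Finset.mul_sum]
      refine Finset.sum_congr rfl fun i _ => ?_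
      rw [hP, Matrix.updateCol_self]
      show _ = θ i * (((algebraMap K K⟮x⟯ (a i) * (tE x c)⁻¹ : K⟮x⟯)) : F)
      push_cast
      rw [coe_tE]
      ring
    · rw [swapTuple_of_ne x θ hl]
      rw [Finset.sum_eq_single l]
      · rw [hP, Matrix.updateCol_ne hl, Matrix.one_apply_eq]
        simp
      · intro i _ hi
        rw [hP, Matrix.updateCol_ne hl, Matrix.one_apply_ne hi]
        simp
      · simp
  rw [hvec, Algebra.discr_of_matrix_vecMul, hdet]

/-- The discriminant of a tuple scaled by an element of `K(x)`. -/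
theorem discr_mul_tuple (x : F) {μ : ℕ} (u : K⟮x⟯) (θ : Fin μ → F) :
    Algebra.discr K⟮x⟯ (fun i => (u : F) * θ i) = (u ^ μ) ^ 2 * Algebra.discr K⟮x⟯ θ := by
  classical
  have hvec : (fun i => (u : F) * θ i) =
      θ ᵥ* (u • (1 : Matrix (Fin μ) (Fin μ) K⟮x⟯)).map (algebraMap K⟮x⟯ F) := by
    ext l
    simp only [Matrix.vecMul, dotProduct, Matrix.map_apply, Matrix.smul_apply, smul_eq_mul]
    rw [Finset.sum_eq_single l]
    · rw [Matrix.one_apply_eq, mul_one, mul_comm]
      rfl
    · intro i _ hi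
      rw [Matrix.one_apply_ne hi]
      simp
    · simp
  rw [hvec, Algebra.discr_of_matrix_vecMul, Matrix.det_smul, Matrix.det_one, mul_one,
    Fintype.card_fin]

variable {A : ValuationSubring K} {O : ValuationSubring F} {x : F}

/-- The swapped tuple is orthonormal. -/
theorem isONx_swap (h : GaussHyp A O x) {μ : ℕ} {θ : Fin μ → F} (hθ : IsONx (K := K) O x θ)
    (j : Fin μ) {c : K} (hc : c ∈ A) (a : Fin μ → K) (ha : ∀ i, a i ∈ A) (haj : a j = 1) :
    IsONx (K := K) O x (swapTuple x θ j c a) := by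
  classical
  intro r
  set t : F := x - algebraMap K F c with ht
  obtain ⟨htO, htiO⟩ := h.sub_mem hc
  have ht0 : t ≠ 0 := by
    have := aeval_ne_zero_of_transcendental h.transcendental (X_sub_C_ne_zero c)
    simpa [ht] using this
  set g : F := t⁻¹ * ∑ i, algebraMap K F (a i) * θ i with hg
  set r' : Fin μ → K⟮x⟯ := fun i =>
    (if i = j then 0 else r i) + r j * (tE x c)⁻¹ * algebraMap K K⟮x⟯ (a i) with hr'
  have hr'coe : ∀ i, ((r' i : K⟮x⟯) : F) =
      (if i = j then 0 else (r i : F)) + (r j : F) * t⁻¹ * algebraMap K F (a i) := by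
    intro i
    simp only [hr']
    push_cast
    split_ifs <;> simp [ht]
  have hsumL : (∑ l, (r l : F) * swapTuple x θ j c a l) =
      (r j : F) * g + ∑ i, (if i = j then 0 else (r i : F) * θ i) := by
    have : ∀ l, (r l : F) * swapTuple x θ j c a l =
        (if l = j then (r j : F) * g else 0) + (if l = j then 0 else (r l : F) * θ l) := by
      intro l
      by_cases hl : l = j
      · subst hl
        rw [swapTuple_self]
        simp [hg, ht]
      · rw [swapTuple_of_ne x θ hl]
        simp [hl]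
    rw [Finset.sum_congr rfl fun l _ => this l, Finset.sum_add_distrib, Finset.sum_ite_eq']
    simp
  have hsumR : (∑ i, ((r' i : K⟮x⟯) : F) * θ i) =
      (r j : F) * g + ∑ i, (if i = j then 0 else (r i : F) * θ i) := by
    have : ∀ i, ((r' i : K⟮x⟯) : F) * θ i =
        (r j : F) * t⁻¹ * (algebraMap K F (a i) * θ i) +
          (if i = j then 0 else (r i : F) * θ i) := by
      intro i
      rw [hr'coe i]
      split_ifs <;> ring
    rw [Finset.sum_congr rfl fun i _ => this i, Finset.sum_add_distrib, ← Finset.mul_sum, hg]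
    ring
  rw [hsumL, ← hsumR, hθ r']
  constructor
  · intro H
    have hj : (r j : F) * t⁻¹ ∈ O := by
      have := H j
      rw [hr'coe j] at this
      simpa [haj] using this
    have hrj : (r j : F) ∈ O := by
      have := O.mul_mem _ _ hj htO
      rwa [mul_assoc, inv_mul_cancel₀ ht0, mul_one] at this
    intro i
    by_cases hi : i = j
    · subst hi
      exact hrj
    · have hi' := H i
      rw [hr'coe i, if_neg hi] at hi'
      have h2 : (r i : F) = ((r i : F) + (r j : F) * t⁻¹ * algebraMap K F (a i)) -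
          (r j : F) * t⁻¹ * algebraMap K F (a i) := by ring
      rw [h2]
      exact O.sub_mem hi' (O.mul_mem _ _ hj (h.algebraMap_mem (ha i)))
  · intro H i
    have hj : (r j : F) * t⁻¹ ∈ O := O.mul_mem _ _ (H j) htiO
    rw [hr'coe i]
    refine O.add_mem _ _ ?_ (O.mul_mem _ _ hj (h.algebraMap_mem (ha i)))
    split_ifs
    · exact O.zero_mem
    · exact H i

end Fermat.Agent.S18.H27
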