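import Fermat.Agent.S18.H27.DiscBasis
import Fermat.Agent.S18.H49.C1Defs
import Fermat.Agent.S18.H80.OfSetup

/-!
# S18 / C1 / D3 (helper27): the minimal tuple in the shape of the C1 sub-skeleton

* `exists_isMinTuple` : node `exists_minTuple` of the C1 sub-skeleton (`H49.IsMinTuple`), with the
  extra information that the Gram determinant is a unit of `O`.
* `exists_minTuple_skel` : the node verbatim.
* `mo_disc_of_setup`, `ev_disc_of_one` : nodes `mo_disc` and `ev_disc` of the C1 sub-skeleton in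
  terms of a `Setup`.
-/

set_option autoImplicit false

open AlgebraicCurve IntermediateField Polynomial

noncomputable section

namespace Fermat.Agent.S18.H27

open Fermat.Agent.S18.H74 Fermat.Agent.S18.H49

variable {K : Type*} [Field K] {A : ValuationSubring K} {F : Type*} [Field F] [Algebra K F]
  {O : ValuationSubring F} {x : F}

/-- A disc basis inside `S_b`, orthonormal, with coordinates in `R_b`, is a minimal tuple in the
sense of the C1 sub-skeleton. -/
theorem isMinTuple_of_discBasis (hx : Transcendental K x) {b : K} {μ : ℕ} {θ : Fin μ → F}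
    (hmem : ∀ i, θ i ∈ discRing A O x b)
    (hon : ∀ r : Fin μ → K⟮x⟯, (∑ i, (r i : F) * θ i) ∈ O ↔ ∀ i, (r i : F) ∈ O)
    (hcoord : ∀ r : Fin μ → K⟮x⟯, (∑ i, (r i : F) * θ i) ∈ discRing A O x b →
      ∀ i, (r i : F) ∈ discRing A O x b)
    (hθ : IsDiscBasis A x b θ) : IsMinTuple A O x b θ where
  mem := hmem
  on := hon
  loc c hc r hf i :=
    mem_overRing_iff_ord.mp ((hθ c hc r (mem_overRing_iff_ord.mpr hf) i).mem_overRing hx)
  coord := hcoord

/-- **C1/D3**: a minimal tuple (in the sense of the C1 sub-skeleton) whose Gram determinant is a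
unit of `O`. -/
theorem exists_isMinTuple [CharZero K] (hA : A ≠ ⊤) (hS : Setup K A F O x) (b : K)
    (hb : b ∈ A) :
    ∃ θ : Fin (Module.finrank K⟮x⟯ F) → F, IsMinTuple A O x b θ ∧
      ((gramDet K F x θ : K⟮x⟯) : F) ∈ O ∧ ((gramDet K F x θ : K⟮x⟯) : F)⁻¹ ∈ O := by
  have hx : Transcendental K x := (gaussHyp_of_setup hA hS).transcendental
  obtain ⟨θ, hon, hgr, hmem, hcoord, hθ⟩ := exists_discBasis hA hS hb
  refine ⟨θ, isMinTuple_of_discBasis hx hmem hon hcoord hθ, ?_, hgr⟩
  have D := Fermat.Agent.S18.H80.resData_of_setup hA hS θ hon hgr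
  have h1 : ((D.gramO : ↥(Fermat.Agent.S18.H80.OL (K := K) O x)) : K⟮x⟯) ∈
      Fermat.Agent.S18.H80.OL (K := K) O x := D.gramO.2
  rw [Fermat.Agent.S18.H80.mem_OL, D.coe_gramO] at h1
  exact h1

/-- Node `exists_minTuple` of the C1 sub-skeleton, verbatim. -/
theorem exists_minTuple_skel [IsAlgClosed K] [CharZero K] (hA : A ≠ ⊤) (hS : Setup K A F O x)
    (b : K) (hb : b ∈ A) :
    ∃ θ : Fin (Module.finrank K⟮x⟯ F) → F, IsMinTuple A O x b θ := by
  obtain ⟨θ, hθ, -⟩ := exists_isMinTuple hA hS b hb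
  exact ⟨θ, hθ⟩

end Fermat.Agent.S18.H27
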