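import Mathlib
import Fermat.Prelude.Def_AlgebraicCurve_DivisorClassGroup
import Fermat.Agent.S24.H52.AddVal

/-!
# S18 / C1 / D3 (helper27): the `K(x)`-side API for the minimal tuple

`K` a field, `F/K` a field, `x : F` transcendental over `K`.

* `overRing x c` : the `K`-subalgebra of `F` of functions without poles at the places over `x = c`.
* `RegAt x c r` : `r = p(x)/q(x)` with `q(c) ≠ 0` (the local ring `K[x]_(x-c)` of `K(x)`).
* `regRing hx c` : the same as a `ValuationSubring K⟮x⟯`.
-/

set_option autoImplicit false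

open AlgebraicCurve IntermediateField Polynomial

noncomputable section

namespace Fermat.Agent.S18.H27

variable {K : Type*} [Field K] {F : Type*} [Field F] [Algebra K F]

/-- Membership in the valuation ring of a place is `0 ≤ ord` (also at `0`). -/
theorem mem_place_iff (P : Place K F) (f : F) : f ∈ P.toValuationSubring ↔ 0 ≤ P.ord f := by
  rcases eq_or_ne f 0 with rfl | hf
  · simp
  · exact Fermat.Agent.S24.H52.mem_iff_ord_nonneg P hf

/-- Positive order means membership in the maximal ideal. -/
theorem ord_pos_iff (P : Place K F) {f : F} (hf : f ≠ 0) :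
    0 < P.ord f ↔ f ∈ P.toValuationSubring.nonunits := by
  rw [ValuationSubring.mem_nonunits_iff_or]
  have h := mem_place_iff P f⁻¹
  rw [P.ord_inv] at h
  constructor
  · intro h1
    right
    rw [h]
    omega
  · rintro (h1 | h1)
    · exact absurd h1 hf
    · rw [h] at h1
      omega

theorem mem_nonunits_of_ord_pos (P : Place K F) {f : F} (h : 0 < P.ord f) :
    f ∈ P.toValuationSubring.nonunits := by
  have hf : f ≠ 0 := by
    rintro rfl
    simp at h
  exact (ord_pos_iff P hf).mp h

/-- The functions without poles at the places over `x = c`. -/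
def overRing (x : F) (c : K) : Subalgebra K F where
  carrier := {f | ∀ P : Place K F, 0 < P.ord (x - algebraMap K F c) → f ∈ P.toValuationSubring}
  mul_mem' := fun ha hb P hP => P.toValuationSubring.mul_mem _ _ (ha P hP) (hb P hP)
  add_mem' := fun ha hb P hP => P.toValuationSubring.add_mem _ _ (ha P hP) (hb P hP)
  algebraMap_mem' := fun a P _ => P.algebraMap_mem' a

theorem mem_overRing {x : F} {c : K} {f : F} :
    f ∈ overRing x c ↔
      ∀ P : Place K F, 0 < P.ord (x - algebraMap K F c) → f ∈ P.toValuationSubring :=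
  Iff.rfl

theorem mem_overRing_iff_ord {x : F} {c : K} {f : F} :
    f ∈ overRing x c ↔ ∀ P : Place K F, 0 < P.ord (x - algebraMap K F c) → 0 ≤ P.ord f := by
  simp only [mem_overRing, mem_place_iff]

theorem self_mem_overRing (x : F) (c : K) : x ∈ overRing x c := by
  intro P hP
  have h1 : x - algebraMap K F c ∈ P.toValuationSubring :=
    P.toValuationSubring.nonunits_le (mem_nonunits_of_ord_pos P hP)
  have h2 : x = (x - algebraMap K F c) + algebraMap K F c := by ring
  rw [h2]
  exact P.toValuationSubring.add_mem _ _ h1 (P.algebraMap_mem' c)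

theorem aeval_mem_overRing (x : F) (c : K) (p : K[X]) : aeval x p ∈ overRing x c := by
  have h : Algebra.adjoin K {x} ≤ overRing x c :=
    Algebra.adjoin_le (Set.singleton_subset_iff.mpr (self_mem_overRing x c))
  exact h (aeval_mem_adjoin_singleton K x)

/-- `q(x)` is a unit at the places over `c` as soon as `q(c) ≠ 0`. -/
theorem inv_aeval_mem_overRing (x : F) {c : K} {q : K[X]} (hq : q.eval c ≠ 0) :
    (aeval x q)⁻¹ ∈ overRing x c := by
  intro P hP
  set V := P.toValuationSubring with hV
  obtain ⟨s, hs⟩ := X_sub_C_dvd_sub_C_eval (a := c) (p := q)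
  have hqx : aeval x q = algebraMap K F (q.eval c) + (x - algebraMap K F c) * aeval x s := by
    have := congrArg (aeval x) hs
    simp only [map_sub, map_mul, aeval_X, aeval_C] at this
    linear_combination this
  have h1 : V.valuation (x - algebraMap K F c) < 1 :=
    (ValuationSubring.mem_nonunits_iff V).mp (mem_nonunits_of_ord_pos P hP)
  have h2 : V.valuation (aeval x s) ≤ 1 :=
    (V.valuation_le_one_iff _).mpr (aeval_mem_overRing x c s P hP)
  have h3 : V.valuation ((x - algebraMap K F c) * aeval x s) < 1 := by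
    rw [map_mul]
    exact mul_lt_one_of_lt_of_le h1 h2
  have h4 : V.valuation (algebraMap K F (q.eval c)) = 1 := by
    have hle : V.valuation (algebraMap K F (q.eval c)) ≤ 1 :=
      (V.valuation_le_one_iff _).mpr (P.algebraMap_mem' _)
    have h5 : V.valuation (algebraMap K F (q.eval c)⁻¹) ≤ 1 :=
      (V.valuation_le_one_iff _).mpr (P.algebraMap_mem' _)
    have h5' : V.valuation (algebraMap K F (q.eval c)) *
        V.valuation (algebraMap K F (q.eval c)⁻¹) = 1 := by
      rw [← map_mul, ← map_mul, mul_inv_cancel₀ hq, map_one, map_one]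
    refine le_antisymm hle ?_
    by_contra hlt
    push Not at hlt
    have := mul_lt_one_of_lt_of_le hlt h5
    rw [h5'] at this
    exact lt_irrefl _ this
  have h6 : V.valuation (aeval x q) = 1 := by
    rw [hqx, Valuation.map_add_eq_of_lt_left _ (by rw [h4]; exact h3), h4]
  rw [← V.valuation_le_one_iff, map_inv₀, h6, inv_one]

/-- `r` is a quotient `p(x)/q(x)` with `q(c) ≠ 0`. -/
def RegAt (x : F) (c : K) (r : F) : Prop :=
  ∃ p q : K[X], q.eval c ≠ 0 ∧ r * aeval x q = aeval x p

theorem regAt_aeval (x : F) (c : K) (p : K[X]) : RegAt x c (aeval x p) :=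
  ⟨p, 1, by simp, by simp⟩

theorem regAt_algebraMap (x : F) (c : K) (a : K) : RegAt x c (algebraMap K F a) := by
  simpa using regAt_aeval x c (C a)

theorem regAt_zero (x : F) (c : K) : RegAt x c 0 := by
  simpa using regAt_algebraMap x c 0

theorem regAt_one (x : F) (c : K) : RegAt x c 1 := by
  simpa using regAt_algebraMap x c 1

theorem regAt_self (x : F) (c : K) : RegAt x c x := by
  simpa using regAt_aeval x c X

theorem RegAt.add {x : F} {c : K} {r s : F} (hr : RegAt x c r) (hs : RegAt x c s) :
    RegAt x c (r + s) := by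
  obtain ⟨p, q, hq, h⟩ := hr
  obtain ⟨p', q', hq', h'⟩ := hs
  refine ⟨p * q' + p' * q, q * q', by simp [hq, hq'], ?_⟩
  simp only [map_add, map_mul]
  linear_combination aeval x q' * h + aeval x q * h'

theorem RegAt.mul {x : F} {c : K} {r s : F} (hr : RegAt x c r) (hs : RegAt x c s) :
    RegAt x c (r * s) := by
  obtain ⟨p, q, hq, h⟩ := hr
  obtain ⟨p', q', hq', h'⟩ := hs
  refine ⟨p * p', q * q', by simp [hq, hq'], ?_⟩
  simp only [map_mul]
  linear_combination (s * aeval x q') * h + aeval x p * h'

theorem RegAt.neg {x : F} {c : K} {r : F} (hr : RegAt x c r) : RegAt x c (-r) := by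
  obtain ⟨p, q, hq, h⟩ := hr
  exact ⟨-p, q, hq, by simp only [map_neg]; linear_combination -h⟩

theorem RegAt.sub {x : F} {c : K} {r s : F} (hr : RegAt x c r) (hs : RegAt x c s) :
    RegAt x c (r - s) := by
  rw [sub_eq_add_neg]
  exact hr.add hs.neg

theorem RegAt.pow {x : F} {c : K} {r : F} (hr : RegAt x c r) (n : ℕ) : RegAt x c (r ^ n) := by
  induction n with
  | zero => simpa using regAt_one x c
  | succ n ih => rw [pow_succ]; exact ih.mul hr

theorem aeval_ne_zero_of_transcendental {x : F} (hx : Transcendental K x) {q : K[X]}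
    (hq : q ≠ 0) : aeval x q ≠ 0 := fun h => hx ⟨q, hq, h⟩

theorem eq_of_aeval_eq {x : F} (hx : Transcendental K x) {p q : K[X]}
    (h : aeval x p = aeval x q) : p = q := by
  by_contra hne
  exact aeval_ne_zero_of_transcendental hx (sub_ne_zero.mpr hne) (by rw [map_sub, h, sub_self])

/-- A regular quotient has no poles at the places over `c`. -/
theorem RegAt.mem_overRing {x : F} (hx : Transcendental K x) {c : K} {r : F}
    (hr : RegAt x c r) : r ∈ overRing x c := by
  obtain ⟨p, q, hq, h⟩ := hr
  have hq0 : q ≠ 0 := by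
    rintro rfl
    simp at hq
  have hqx := aeval_ne_zero_of_transcendental hx hq0
  have hr' : r = aeval x p * (aeval x q)⁻¹ := by
    field_simp
    exact h
  rw [hr']
  exact (overRing x c).mul_mem (aeval_mem_overRing x c p) (inv_aeval_mem_overRing x hq)

/-- Value at `c`: a regular quotient is a constant plus `(x - c)` times a regular quotient. -/
theorem RegAt.exists_eq_add {x : F} (hx : Transcendental K x) {c : K} {ρ : F}
    (hρ : RegAt x c ρ) :
    ∃ (a : K) (σ : F), RegAt x c σ ∧ ρ = algebraMap K F a + (x - algebraMap K F c) * σ := by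
  obtain ⟨p, q, hq, h⟩ := hρ
  have hq0 : q ≠ 0 := by
    rintro rfl
    simp at hq
  have hqx := aeval_ne_zero_of_transcendental hx hq0
  set a : K := p.eval c / q.eval c with ha
  have hroot : (p - C a * q).eval c = 0 := by
    simp only [eval_sub, eval_mul, eval_C, ha]
    field_simp
    ring
  obtain ⟨s, hs⟩ := dvd_iff_isRoot.mpr hroot
  have hsx : aeval x p - algebraMap K F a * aeval x q = (x - algebraMap K F c) * aeval x s := by
    have := congrArg (aeval x) hs
    simpa only [map_sub, map_mul, aeval_X, aeval_C] using this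
  refine ⟨a, aeval x s * (aeval x q)⁻¹, ⟨s, q, hq, ?_⟩, ?_⟩
  · field_simp
  · field_simp
    linear_combination h + hsx

/-- Every element of `K(x)` becomes regular at `c` after multiplication by a power of `x - c`. -/
theorem exists_pow_mul_regAt {x : F} (hx : Transcendental K x) (c : K) {r : F}
    (hr : r ∈ K⟮x⟯) : ∃ N : ℕ, RegAt x c ((x - algebraMap K F c) ^ N * r) := by
  obtain ⟨p, q, rfl⟩ := (mem_adjoin_simple_iff K r).mp hr
  by_cases hq0 : q = 0
  · refine ⟨0, ?_⟩
    simp only [hq0, map_zero, div_zero, mul_zero]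
    exact regAt_zero x c
  obtain ⟨q₁, hq₁, hq₁'⟩ := exists_eq_pow_rootMultiplicity_mul_and_not_dvd q hq0 c
  have hq₁c : q₁.eval c ≠ 0 := fun h => hq₁' (dvd_iff_isRoot.mpr h)
  have hqx := aeval_ne_zero_of_transcendental hx hq0
  refine ⟨q.rootMultiplicity c, p, q₁, hq₁c, ?_⟩
  have h1 : aeval x q = (x - algebraMap K F c) ^ q.rootMultiplicity c * aeval x q₁ := by
    have := congrArg (aeval x) hq₁
    simpa only [map_mul, map_pow, map_sub, aeval_X, aeval_C] using this
  field_simp
  linear_combination (-(aeval x p)) * h1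

/-- In `K(x)` every element or its inverse is regular at `c`. -/
theorem regAt_or_inv {x : F} (hx : Transcendental K x) (c : K) {r : F} (hr : r ∈ K⟮x⟯) :
    RegAt x c r ∨ RegAt x c r⁻¹ := by
  obtain ⟨p, q, rfl⟩ := (mem_adjoin_simple_iff K r).mp hr
  by_cases hq0 : q = 0
  · left
    simp only [hq0, map_zero, div_zero]
    exact regAt_zero x c
  by_cases hp0 : p = 0
  · left
    simp only [hp0, map_zero, zero_div]
    exact regAt_zero x c
  obtain ⟨q₁, hq₁, hq₁'⟩ := exists_eq_pow_rootMultiplicity_mul_and_not_dvd q hq0 c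
  obtain ⟨p₁, hp₁, hp₁'⟩ := exists_eq_pow_rootMultiplicity_mul_and_not_dvd p hp0 c
  have hq₁c : q₁.eval c ≠ 0 := fun h => hq₁' (dvd_iff_isRoot.mpr h)
  have hp₁c : p₁.eval c ≠ 0 := fun h => hp₁' (dvd_iff_isRoot.mpr h)
  have hqx := aeval_ne_zero_of_transcendental hx hq0
  have hpx := aeval_ne_zero_of_transcendental hx hp0
  have hXc : (X - C c : K[X]) ≠ 0 := X_sub_C_ne_zero c
  have htx : x - algebraMap K F c ≠ 0 := by
    have := aeval_ne_zero_of_transcendental hx hXc
    simpa using this
  have h1 : aeval x q = (x - algebraMap K F c) ^ q.rootMultiplicity c * aeval x q₁ := by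
    have := congrArg (aeval x) hq₁
    simpa only [map_mul, map_pow, map_sub, aeval_X, aeval_C] using this
  have h2 : aeval x p = (x - algebraMap K F c) ^ p.rootMultiplicity c * aeval x p₁ := by
    have := congrArg (aeval x) hp₁
    simpa only [map_mul, map_pow, map_sub, aeval_X, aeval_C] using this
  have hq₁x : aeval x q₁ ≠ 0 := fun h => hqx (by rw [h1, h, mul_zero])
  have hp₁x : aeval x p₁ ≠ 0 := fun h => hpx (by rw [h2, h, mul_zero])
  rcases le_total (q.rootMultiplicity c) (p.rootMultiplicity c) with hab | hab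
  · left
    obtain ⟨d, hd⟩ := Nat.exists_eq_add_of_le hab
    refine ⟨(X - C c) ^ d * p₁, q₁, hq₁c, ?_⟩
    simp only [map_mul, map_pow, map_sub, aeval_X, aeval_C]
    rw [h1, h2, hd, pow_add]
    field_simp
  · right
    obtain ⟨d, hd⟩ := Nat.exists_eq_add_of_le hab
    refine ⟨(X - C c) ^ d * q₁, p₁, hp₁c, ?_⟩
    simp only [map_mul, map_pow, map_sub, aeval_X, aeval_C]
    rw [h1, h2, hd, pow_add]
    field_simp

/-- The local ring `K[x]_(x-c)` of `K(x)`, as a valuation subring. -/
def regRing {x : F} (hx : Transcendental K x) (c : K) : ValuationSubring K⟮x⟯ where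
  carrier := {r | RegAt x c (r : F)}
  mul_mem' := fun ha hb => RegAt.mul ha hb
  one_mem' := regAt_one x c
  add_mem' := fun ha hb => RegAt.add ha hb
  zero_mem' := regAt_zero x c
  neg_mem' := fun ha => RegAt.neg ha
  mem_or_inv_mem' := fun r => by
    have := regAt_or_inv hx c r.2
    simpa using this

theorem mem_regRing {x : F} (hx : Transcendental K x) (c : K) (r : K⟮x⟯) :
    r ∈ regRing hx c ↔ RegAt x c (r : F) :=
  Iff.rfl

end Fermat.Agent.S18.H27
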